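import Fermat.Agent.DS.C.Per.Prim

/-!
# Program DS, package (C), row C7 (PER): the period character is an eigenvector of the diamonds

If `g∣γ₀ = c • g` for `γ₀ ∈ Γ₀(M)` then `Ψ_g(γ₀ γ γ₀⁻¹) = c Ψ_g(γ)`; with the nebentypus `ψ` of `g`
this gives `Ψ_g ∘ ⟨d⟩ = ψ(d) • Ψ_g`.
-/

set_option autoImplicit false

noncomputable section

namespace Fermat.Agent.DS

open UpperHalfPlane CongruenceSubgroup ModularCurve ModularCurve.Period Filter Topology Function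
open Fermat.Agent.S21
open scoped MatrixGroups Manifold ModularForm Pointwise

theorem dscPeriod_smul (M : ℕ) [NeZero M] (c : ℂ) (g : CuspForm (Gamma1 M) 2) :
    dscPeriod M (c • g) = c • dscPeriod M g := (dscPeriodL M).map_smul c g

theorem dscPeriod_conj (M : ℕ) [NeZero M] (g : CuspForm (Gamma1 M) 2) (c : ℂ) (γ₀ : SL(2, ℤ))
    (h : γ₀ ∈ Gamma0 M) (hg : (g : ℍ → ℂ) ∣[(2 : ℤ)] γ₀ = c • (g : ℍ → ℂ)) (γ : Gamma1 M) :
    dscPeriod M g (Additive.ofMul (dscConj M γ₀ h γ)) = c * dscPeriod M g (Additive.ofMul γ) := by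
  have hG : ∀ τ : ℍ, HasDerivAt ((fun w : ℍ => dscPrim M g (γ₀ • w)) ∘ ofComplex)
      ((c • g : CuspForm (Gamma1 M) 2) τ) ↑τ := by
    intro τ
    have h1 := hasDerivAt_comp_smul (dscPrim_hasDerivAt M g) γ₀ τ
    rw [hg] at h1
    exact h1
  have h1 := dscPeriod_eq_of_hasDerivAt M (c • g) hG γ UpperHalfPlane.I
  have h2 := dscPeriod_apply' M g (dscConj M γ₀ h γ) (γ₀ • UpperHalfPlane.I)
  have e : ((dscConj M γ₀ h γ : Gamma1 M) : SL(2, ℤ)) • (γ₀ • UpperHalfPlane.I)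
      = γ₀ • ((γ : SL(2, ℤ)) • UpperHalfPlane.I) := by
    rw [dscConj_coe, ← mul_smul, ← mul_smul, inv_mul_cancel_right]
  rw [h2, e, ← h1, dscPeriod_smul]
  rfl

/-- **diamond eigen-property** of the period character. -/
theorem dscPsi_dia (M : ℕ) [NeZero M] (ψ : DirichletCharacter ℂ M) (g : CuspForm (Gamma1 M) 2)
    (hneb : ∀ γ : SL(2, ℤ), γ ∈ Gamma0 M →
      (g : ℍ → ℂ) ∣[(2 : ℤ)] γ = ψ ((γ 1 1 : ℤ) : ZMod M) • (g : ℍ → ℂ))
    (d : (ZMod M)ˣ) :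
    (dscPsi M g).comp (dscDia M d) = ψ (d : ZMod M) • dscPsi M g := by
  refine dscAb_ext fun γ => ?_
  obtain ⟨γ, rfl⟩ := Additive.ofMul.surjective γ
  rw [AddMonoidHom.comp_apply, dscDia_cls', dscPsi_cls, AddMonoidHom.smul_apply, dscPsi_cls,
    smul_eq_mul]
  have h := hneb (dscSigma M d) (dscSigma_mem M d)
  rw [dscSigma_entry] at h
  exact dscPeriod_conj M g _ _ _ h γ

end Fermat.Agent.DS
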