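import Fermat.Agent.DS.C.Per.Defs

/-!
# Program DS, package (C), row C7 (PER), leaf (H5): the diamond operators on `Γ₁(M)^ab`

* `dscDia_one`, `dscDia_mul` : `d ↦ ⟨d⟩` is multiplicative;
* `dscDia_comm_dscTr`        : `⟨d⟩` commutes with the transfer `T_p` (`p ∤ M`).

The commutation is a formal property of the transfer (`dscper_transfer_conj`): if `s` normalises
`Γ` (inducing `c : Γ →* Γ`) and conjugation by `s` permutes the cosets `Γ α_i`, then the transfer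
commutes with `c^ab`.
-/

set_option autoImplicit false

noncomputable section

namespace Fermat.Agent.DS

open P2MW.S_ModularForm_heckeT_slash_eq_self_of_mem_Gamma0.ModularForm.HeckeSlashInvariance
open ModularForm CongruenceSubgroup Matrix.SpecialLinearGroup
open Fermat.Agent.S16LB
open scoped MatrixGroups

/-! ### multiplicativity -/

theorem dscDia_one (M : ℕ) [NeZero M] : dscDia M 1 = AddMonoidHom.id (dscAb M) := by
  apply dscAb_ext
  intro γ
  have h := dscDia_cls M 1 1 (Gamma0 M).one_mem (by simp) (Additive.toMul γ)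
  rw [show γ = Additive.ofMul (Additive.toMul γ) from rfl, h]
  show dscCls M _ = dscCls M _
  congr 2
  apply Subtype.ext
  simp

theorem dscDia_mul (M : ℕ) [NeZero M] (d e : (ZMod M)ˣ) :
    dscDia M (d * e) = (dscDia M d).comp (dscDia M e) := by
  apply dscAb_ext
  intro γ
  have hde : dscSigma M d * dscSigma M e ∈ Gamma0 M :=
    (Gamma0 M).mul_mem (dscSigma_mem M d) (dscSigma_mem M e)
  have hent : ((((dscSigma M d * dscSigma M e) 1 1 : ℤ)) : ZMod M) =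
      ((d * e : (ZMod M)ˣ) : ZMod M) := by
    rw [dsc_entry_mul M _ _ (dscSigma_mem M d), dscSigma_entry, dscSigma_entry, Units.val_mul]
  have h := dscDia_cls M (d * e) _ hde hent (Additive.toMul γ)
  rw [show γ = Additive.ofMul (Additive.toMul γ) from rfl, h, AddMonoidHom.comp_apply,
    dscDia_cls', dscDia_cls']
  congr 2
  apply Subtype.ext
  simp only [dscConj_coe, mul_inv_rev]
  group

/-! ### the transfer commutes with conjugation -/

section Abstract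

variable {𝔾 Γ I : Type*} [Group 𝔾] [Group Γ] [Fintype I] (H : S16lbHeckeData 𝔾 Γ I)

/-- if `s` normalises `Γ` (inducing `c`) and `s α_i s⁻¹ = δ_i α_{π i}` with `π` injective, then the
transfer commutes with `c^ab`. -/
theorem dscper_transfer_conj (s : 𝔾) (c : Γ →* Γ)
    (hc : ∀ γ, H.ι (c γ) = s * H.ι γ * s⁻¹) (π : I → I) (hπ : Function.Injective π) (δ : I → Γ)
    (hδ : ∀ i, s * H.α i * s⁻¹ = H.ι (δ i) * H.α (π i)) (γ : Γ) :
    H.trEnd (Additive.ofMul (Abelianization.of (c γ))) =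
      MonoidHom.toAdditive (Abelianization.map c)
        (H.trEnd (Additive.ofMul (Abelianization.of γ))) := by
  classical
  have hπb : Function.Bijective π := Finite.injective_iff_bijective.mp hπ
  -- the conjugated relation
  have hrel : ∀ i, H.α (π i) * H.ι (c γ) =
      H.ι ((δ i)⁻¹ * c (H.coc γ i) * δ (H.idx γ i)) * H.α (π (H.idx γ i)) := by
    intro i
    have h1 : H.α (π i) = H.ι (δ i)⁻¹ * (s * H.α i * s⁻¹) := by
      rw [hδ i, map_inv, inv_mul_cancel_left]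
    have h2 : s * H.α (H.idx γ i) * s⁻¹ = H.ι (δ (H.idx γ i)) * H.α (π (H.idx γ i)) := hδ _
    rw [h1, hc, map_mul, map_mul, hc, mul_assoc (H.ι (δ i)⁻¹ * _), ← h2]
    have h3 := H.spec γ i
    calc H.ι (δ i)⁻¹ * (s * H.α i * s⁻¹) * (s * H.ι γ * s⁻¹)
        = H.ι (δ i)⁻¹ * (s * (H.α i * H.ι γ) * s⁻¹) := by group
      _ = H.ι (δ i)⁻¹ * (s * (H.ι (H.coc γ i) * H.α (H.idx γ i)) * s⁻¹) := by rw [h3]
      _ = H.ι (δ i)⁻¹ * (s * H.ι (H.coc γ i) * s⁻¹) * (s * H.α (H.idx γ i) * s⁻¹) := by group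
  have hcoc : ∀ i, H.coc (c γ) (π i) = (δ i)⁻¹ * c (H.coc γ i) * δ (H.idx γ i) :=
    fun i => ((H.unique (hrel i)).2).symm
  rw [H.trEnd_of, H.trEnd_of, map_sum]
  rw [← Equiv.sum_comp (Equiv.ofBijective π hπb)
    (fun j => Additive.ofMul (Abelianization.of (H.coc (c γ) j)))]
  simp only [Equiv.ofBijective_apply, hcoc, map_mul, map_inv, ofMul_mul, ofMul_inv,
    Finset.sum_add_distrib, Finset.sum_neg_distrib]
  have h4 : ∑ i, Additive.ofMul (Abelianization.of (δ (H.idx γ i))) =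
      ∑ i, Additive.ofMul (Abelianization.of (δ i)) :=
    Equiv.sum_comp (H.perm γ) (fun i => Additive.ofMul (Abelianization.of (δ i)))
  rw [h4]
  have h5 : ∀ i, MonoidHom.toAdditive (Abelianization.map c)
      (Additive.ofMul (Abelianization.of (H.coc γ i))) =
        Additive.ofMul (Abelianization.of (c (H.coc γ i))) := fun i => by
    simp
  simp only [h5]
  abel

end Abstract

/-! ### the concrete case: `⟨d⟩` and `T_p` -/

/-- conjugation by `σ ∈ Γ₀(M)` permutes the cosets `Γ₁(M) α_x`. -/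
theorem dscper_conj_rep (M p : ℕ) [NeZero M] [Fact p.Prime] (hpM : ¬ p ∣ M) (σ : SL(2, ℤ))
    (hσ : σ ∈ Gamma0 M) (x : OnePoint (ZMod p)) :
    ∃ δ : Gamma1 M, mapGL ℝ σ * dscRep M p hpM x * (mapGL ℝ σ)⁻¹ =
      dscIota M δ * dscRep M p hpM (redMatrix p σ⁻¹ • x) := by
  have hσi : σ⁻¹ ∈ Gamma0 M := (Gamma0 M).inv_mem hσ
  obtain ⟨g', hg', h⟩ := heckeRep_mul hpM σ⁻¹ (s16lb_dvd_of_mem_Gamma0 hσi) x
  set y : OnePoint (ZMod p) := redMatrix p σ⁻¹ • x with hy
  have hg'0 : g' ∈ Gamma0 M := s16lb_mem_Gamma0_of_dvd hg'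
  have hent := (s16lb_heckeRep_entries h).1
  have hg'10 : ((g' 1 0 : ℤ) : ZMod M) = 0 := Gamma0_mem.mp hg'0
  have hD : ((s16lbRepD p x : ℕ) : ZMod M) * (((σ⁻¹ : SL(2, ℤ)) 1 1 : ℤ) : ZMod M) =
      ((g' 1 1 : ℤ) : ZMod M) * ((s16lbRepD p y : ℕ) : ZMod M) := by
    have := congrArg (Int.cast : ℤ → ZMod M) hent
    push_cast at this
    rw [hg'10, zero_mul, zero_add] at this
    exact this
  have hσσ : ((σ 1 1 : ℤ) : ZMod M) * (((σ⁻¹ : SL(2, ℤ)) 1 1 : ℤ) : ZMod M) = 1 := by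
    rw [← dsc_entry_mul M σ σ⁻¹ hσ, mul_inv_cancel]
    simp
  have h0 : σ * dscCorr M p hpM x * g' ∈ Gamma0 M :=
    (Gamma0 M).mul_mem ((Gamma0 M).mul_mem hσ (dscCorr_mem M p hpM x)) hg'0
  have hmem : σ * dscCorr M p hpM x * g' * (dscCorr M p hpM y)⁻¹ ∈ Gamma1 M := by
    refine dsa_mul_inv_mem_Gamma1 M _ _ h0 (dscCorr_mem M p hpM y) ?_
    rw [dsc_entry_mul M _ _ ((Gamma0 M).mul_mem hσ (dscCorr_mem M p hpM x)),
      dsc_entry_mul M _ _ hσ]
    apply ((dsc_isUnit_repD M p hpM x).mul (dsc_isUnit_repD M p hpM y)).mul_right_cancel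
    have hx := dscCorr_entry M p hpM x
    have hy' := dscCorr_entry M p hpM y
    calc ((σ 1 1 : ℤ) : ZMod M) * ((dscCorr M p hpM x 1 1 : ℤ) : ZMod M) *
          ((g' 1 1 : ℤ) : ZMod M) *
          (((s16lbRepD p x : ℕ) : ZMod M) * ((s16lbRepD p y : ℕ) : ZMod M))
        = ((σ 1 1 : ℤ) : ZMod M) *
            (((dscCorr M p hpM x 1 1 : ℤ) : ZMod M) * ((s16lbRepD p x : ℕ) : ZMod M)) *
            (((g' 1 1 : ℤ) : ZMod M) * ((s16lbRepD p y : ℕ) : ZMod M)) := by ring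
      _ = (((σ 1 1 : ℤ) : ZMod M) * (((σ⁻¹ : SL(2, ℤ)) 1 1 : ℤ) : ZMod M)) *
            ((p : ZMod M) * ((s16lbRepD p x : ℕ) : ZMod M)) := by rw [hx, ← hD]; ring
      _ = (((dscCorr M p hpM y 1 1 : ℤ) : ZMod M) * ((s16lbRepD p y : ℕ) : ZMod M)) *
            ((s16lbRepD p x : ℕ) : ZMod M) := by rw [hσσ, hy', one_mul]
      _ = ((dscCorr M p hpM y 1 1 : ℤ) : ZMod M) *
          (((s16lbRepD p x : ℕ) : ZMod M) * ((s16lbRepD p y : ℕ) : ZMod M)) := by ring
  refine ⟨⟨_, hmem⟩, ?_⟩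
  show mapGL ℝ σ * (mapGL ℝ (dscCorr M p hpM x) * heckeRep p x) * (mapGL ℝ σ)⁻¹ =
    mapGL ℝ (σ * dscCorr M p hpM x * g' * (dscCorr M p hpM y)⁻¹) *
      (mapGL ℝ (dscCorr M p hpM y) * heckeRep p y)
  have h' : heckeRep p x * (mapGL ℝ σ)⁻¹ = mapGL ℝ g' * heckeRep p y := by
    rw [← map_inv]; exact h
  rw [mul_assoc, mul_assoc, h', map_mul, map_mul, map_mul, map_inv]
  group

/-- conjugation by `σ ∈ Γ₀(M)` commutes with the transfer `T_p`. -/
theorem dscper_conj_comm_dscTr (M p : ℕ) [NeZero M] [Fact p.Prime] (hpM : ¬ p ∣ M)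
    (σ : SL(2, ℤ)) (hσ : σ ∈ Gamma0 M) (γ : Gamma1 M) :
    dscTr M p hpM (dscCls M (Additive.ofMul (dscConj M σ hσ γ))) =
      MonoidHom.toAdditive (Abelianization.map (dscConj M σ hσ))
        (dscTr M p hpM (dscCls M (Additive.ofMul γ))) := by
  choose δ hδ using dscper_conj_rep M p hpM σ hσ
  refine dscper_transfer_conj (dscDataT M p hpM) (mapGL ℝ σ) (dscConj M σ hσ) ?_
    (fun x => redMatrix p σ⁻¹ • x) (MulAction.injective _) δ hδ γ
  intro γ'
  show mapGL ℝ ((dscConj M σ hσ γ' : Gamma1 M) : SL(2, ℤ)) =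
    mapGL ℝ σ * mapGL ℝ (γ' : SL(2, ℤ)) * (mapGL ℝ σ)⁻¹
  rw [dscConj_coe, map_mul, map_mul, map_inv]

/-- **(H5)** the diamond operators commute with the Hecke operators `T_p`, `p ∤ M`, on
`Γ₁(M)^ab`. -/
theorem dscDia_comm_dscTr (M p : ℕ) [NeZero M] [Fact p.Prime] (hpM : ¬ p ∣ M) (d : (ZMod M)ˣ) :
    (dscDia M d).comp (dscTr M p hpM) = (dscTr M p hpM).comp (dscDia M d) := by
  apply dscAb_ext
  intro γ
  rw [AddMonoidHom.comp_apply, AddMonoidHom.comp_apply,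
    show γ = Additive.ofMul (Additive.toMul γ) from rfl, dscDia_cls',
    dscper_conj_comm_dscTr M p hpM _ (dscSigma_mem M d)]
  rfl

end Fermat.Agent.DS
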