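import Fermat.Agent.DS.C.Per.Defs

/-!
# Program DS, package (C), row C7 (PER), leaf (H3): `Γ₁(M)^ab` is finitely generated

`SL₂(ℤ) = ⟨S, T⟩` (Mathlib), `Γ₁(M)` has finite index (`M ≠ 0`), Schreier's lemma, quotient.
Port of `G/Per/Fg.lean`.
-/

set_option autoImplicit false

namespace Fermat.Agent.DS

open CongruenceSubgroup
open scoped MatrixGroups

theorem dscper_SL2Z_fg : Group.FG SL(2, ℤ) := by
  rw [Group.fg_iff]
  refine ⟨{ModularGroup.S, ModularGroup.T}, SpecialLinearGroup.SL2Z_generators, ?_⟩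
  exact Set.toFinite _

theorem dscper_Gamma1_fg (M : ℕ) [NeZero M] : Group.FG (Gamma1 M) := by
  have : Group.FG SL(2, ℤ) := dscper_SL2Z_fg
  infer_instance

/-- **(H3)** `Γ₁(M)^ab` is finitely generated. -/
theorem dscper_fg (M : ℕ) [NeZero M] : AddGroup.FG (dscAb M) := by
  have : Group.FG (Gamma1 M) := dscper_Gamma1_fg M
  have : Group.FG (Abelianization (Gamma1 M)) :=
    Group.fg_of_surjective (f := Abelianization.of)
      (QuotientGroup.mk_surjective (s := commutator (Gamma1 M)))
  exact GroupFG.iff_add_fg.1 inferInstance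

end Fermat.Agent.DS
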