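import Fermat.Agent.DS.C.Per.Defs
import Fermat.Agent.DS.A.FormalToFun

/-!
# Program DS, package (C), row C7 (PER), leaf (H2): the function-level Hecke identity

For `g ∈ S₂(Γ₁(M))` of nebentypus `ψ` whose `q`-coefficients satisfy the formal `T_p` relation with
eigenvalue `b p` (`p ∤ M`), the sum of the slashes of `g` by the coset representatives
`dscRep M p hpM x` (`x ∈ ℙ¹(𝔽_p)`) of `Γ₁(M) \ Γ₁(M) diag(1,p) Γ₁(M)` is `b p • g`.
-/

set_option autoImplicit false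

noncomputable section

namespace Fermat.Agent.DS

open P2MW.S_ModularForm_heckeT_slash_eq_self_of_mem_Gamma0.ModularForm.HeckeSlashInvariance
open ModularForm CongruenceSubgroup Matrix.SpecialLinearGroup UpperHalfPlane
open Fermat.Agent.S16LB
open scoped MatrixGroups ModularForm

/-- the sum over the representatives of `T_p` on `Γ₁(M)` is the twisted operator `dsa_T`. -/
theorem dscper_sum_rep (M : ℕ) [NeZero M] (g : ℍ → ℂ) (ψ : DirichletCharacter ℂ M)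
    (hneb : ∀ γ : SL(2, ℤ), γ ∈ Gamma0 M →
      g ∣[(2 : ℤ)] γ = ψ ((γ 1 1 : ℤ) : ZMod M) • g)
    (p : ℕ) [Fact p.Prime] (hpM : ¬ p ∣ M) :
    ∑ x : OnePoint (ZMod p), g ∣[(2 : ℤ)] dscRep M p hpM x = dsa_T 2 p (ψ (p : ZMod M)) g := by
  have hsum := Fintype.sum_option (fun x : OnePoint (ZMod p) ↦ g ∣[(2 : ℤ)] dscRep M p hpM x)
  rw [show (∑ x : OnePoint (ZMod p), g ∣[(2 : ℤ)] dscRep M p hpM x) =
    ∑ x : Option (ZMod p), g ∣[(2 : ℤ)] dscRep M p hpM x from rfl, hsum, dsa_T, dsa_D,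
    heckeU_eq_sum_zmod, add_comm]
  congr 1
  swap
  · -- the point at infinity
    show g ∣[(2 : ℤ)] (mapGL ℝ (dscSigma M (dscUnit M p hpM)) * heckeDiagMatrix p) = _
    rw [SlashAction.slash_mul]
    have h1 : g ∣[(2 : ℤ)] (mapGL ℝ (dscSigma M (dscUnit M p hpM))) =
        g ∣[(2 : ℤ)] (dscSigma M (dscUnit M p hpM)) := rfl
    rw [h1, hneb _ (dscSigma_mem M _), dscSigma_entry,
      dscUnit_coe, ModularForm.smul_slash, σ_heckeDiagMatrix, ContinuousAlgEquiv.refl_apply]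
  · -- the finite points
    refine Finset.sum_congr rfl fun j _ => ?_
    show g ∣[(2 : ℤ)] (mapGL ℝ (1 : SL(2, ℤ)) * heckeMatrix p j.val) = _
    rw [map_one, one_mul]

/-- **(H2)** the function-level Hecke identity on `Γ₁(M)`. -/
theorem dscper_hecke_fun (M : ℕ) [NeZero M] (g : CuspForm (Gamma1 M) 2)
    (ψ : DirichletCharacter ℂ M) (b : ℕ → ℂ)
    (hneb : ∀ γ : SL(2, ℤ), γ ∈ Gamma0 M →
      (g : ℍ → ℂ) ∣[(2 : ℤ)] γ = ψ ((γ 1 1 : ℤ) : ZMod M) • (g : ℍ → ℂ))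
    (p : ℕ) [Fact p.Prime] (hpM : ¬ p ∣ M)
    (hT : ∀ n : ℕ, ModularFormClass.qCoeff g (p * n) + (p : ℂ) * ψ (p : ZMod M) *
      (if p ∣ n then ModularFormClass.qCoeff g (n / p) else 0) =
        b p * ModularFormClass.qCoeff g n) :
    ∑ x : OnePoint (ZMod p), (g : ℍ → ℂ) ∣[(2 : ℤ)] dscRep M p hpM x = b p • (g : ℍ → ℂ) := by
  rw [dscper_sum_rep M (g : ℍ → ℂ) ψ hneb p hpM]
  refine dsa_formal_to_fun M 2 p (Fact.out : p.Prime).ne_zero (ψ (p : ZMod M)) (b p) g ?_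
  intro n
  rw [← hT n, show ((2 : ℤ) - 1) = 1 from rfl, zpow_one, mul_comm (ψ (p : ZMod M))]

end Fermat.Agent.DS
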