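import Fermat.Agent.DS.C.Per.Prim
import Fermat.Agent.S16.LB.HeckePeriod

/-!
# Program DS, package (C), row C7 (PER): Eichler–Shimura equivariance on `Γ₁(M)`

The period character of `∑_x f∣α_x` (`α_x` the representatives `dscRep M p hpM x` of `T_p`) is the
period character of `f` composed with the transfer `dscTr M p hpM`.
-/

set_option autoImplicit false

noncomputable section

namespace Fermat.Agent.DS

open P2MW.S_ModularForm_heckeT_slash_eq_self_of_mem_Gamma0.ModularForm.HeckeSlashInvariance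
open UpperHalfPlane CongruenceSubgroup ModularCurve ModularCurve.Period Filter Topology Function
open ModularForm Matrix.SpecialLinearGroup
open Fermat.Agent.S21 Fermat.Agent.S16LB
open scoped MatrixGroups Manifold ModularForm Pointwise

variable (M p : ℕ) [NeZero M] [Fact p.Prime] (hpM : ¬ p ∣ M)

theorem dscRep_smul (x : OnePoint (ZMod p)) (z : ℍ) :
    dscRep M p hpM x • z = dscCorr M p hpM x • (heckeRep p x • z) := by
  rw [dscRep, mul_smul]
  rfl

theorem dscper_slash_rep (f : ℍ → ℂ) (x : OnePoint (ZMod p)) :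
    f ∣[(2 : ℤ)] dscRep M p hpM x = (f ∣[(2 : ℤ)] dscCorr M p hpM x) ∣[(2 : ℤ)] heckeRep p x := by
  rw [dscRep, SlashAction.slash_mul, ModularForm.SL_slash]
  rfl

/-- chain rule along a representative. -/
theorem dscper_hasDerivAt_rep {F f : ℍ → ℂ}
    (hF : ∀ τ : ℍ, HasDerivAt (F ∘ ofComplex) (f τ) ↑τ) (x : OnePoint (ZMod p)) (τ : ℍ) :
    HasDerivAt ((fun w : ℍ => F (dscRep M p hpM x • w)) ∘ ofComplex)
      ((f ∣[(2 : ℤ)] dscRep M p hpM x) τ) ↑τ := by
  have h1 : ∀ τ : ℍ, HasDerivAt ((fun w : ℍ => F (dscCorr M p hpM x • w)) ∘ ofComplex)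
      ((f ∣[(2 : ℤ)] dscCorr M p hpM x) τ) ↑τ :=
    fun τ => hasDerivAt_comp_smul hF (dscCorr M p hpM x) τ
  have h2 := s16lb_hasDerivAt_rep h1 x τ
  rw [dscper_slash_rep]
  refine h2.congr_of_eventuallyEq (Eventually.of_forall fun z => ?_)
  simp only [Function.comp_apply, dscRep_smul]

/-- **Eichler–Shimura equivariance** for `T_p` on `Γ₁(M)`. -/
theorem dscPsi_hecke (f g : CuspForm (Gamma1 M) 2)
    (hg : ∀ τ : ℍ, g τ = ∑ x, (⇑f ∣[(2 : ℤ)] dscRep M p hpM x) τ) :
    dscPsi M g = (dscPsi M f).comp (dscTr M p hpM) := by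
  have a1 := dscPrim_hasDerivAt M f
  -- a primitive of `g`
  have hG : ∀ τ : ℍ, HasDerivAt
      ((fun z : ℍ => ∑ x, dscPrim M f (dscRep M p hpM x • z)) ∘ ofComplex) (g τ) ↑τ := by
    intro τ
    rw [hg τ]
    have := HasDerivAt.sum (u := Finset.univ)
      fun x _ => dscper_hasDerivAt_rep M p hpM a1 x τ
    refine this.congr_of_eventuallyEq (Eventually.of_forall fun z => ?_)
    simp only [Function.comp_apply, Finset.sum_apply]
  refine dscAb_ext fun γ => ?_
  obtain ⟨γ, rfl⟩ := Additive.ofMul.surjective γ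
  have hcls : dscCls M (Additive.ofMul γ) = Additive.ofMul (Abelianization.of γ) := rfl
  rw [dscPsi_cls, AddMonoidHom.comp_apply, hcls, dscTr, S16lbHeckeData.trEnd_of, map_sum]
  have hcls' : ∀ δ : Gamma1 M,
      Additive.ofMul (Abelianization.of δ) = dscCls M (Additive.ofMul δ) := fun _ => rfl
  simp only [hcls', dscPsi_cls]
  rw [dscPeriod_eq_of_hasDerivAt M g hG γ UpperHalfPlane.I]
  have key := (dscDataT M p hpM).periods (dscPrim M f) (dscPeriod M f) (fun δ z => by
    exact (dscPeriod_apply' M f δ z).symm) γ UpperHalfPlane.I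
  rw [← key]
  rfl

end Fermat.Agent.DS
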