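import Mathlib
import Fermat.Agent.S21.Injective

/-!
# Program DS, package (C), row C7 (PER), leaf (H4): the generic maximum principle

Port of `S21/Injective.lean` `inj_deriv_eq_zero` with `Γ₀(N)` replaced by an arbitrary finite index
subgroup `Γ` of `SL(2, ℤ)`; the analytic heart `inj_const_of_family` is generic and imported.
-/

set_option autoImplicit false

namespace Fermat.Agent.DS

open Fermat.Agent.S21
open UpperHalfPlane CongruenceSubgroup ModularCurve ModularCurve.Period Filter Topology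
open scoped MatrixGroups ComplexConjugate Manifold

/-- A function on the upper half plane whose real part is `Γ`-invariant (`Γ` of finite index in
`SL(2, ℤ)`), which is holomorphic, `N`-periodic after any `SL(2, ℤ)` translate and has a limit at every cusp, has
vanishing derivative. -/
theorem dscper_deriv_eq_zero (Γ : Subgroup SL(2, ℤ)) [Γ.FiniteIndex] (N : ℕ) [NeZero N]
    (φ d : ℍ → ℂ)
    (hd : ∀ τ : ℍ, HasDerivAt (φ ∘ ofComplex) (d τ) ↑τ)
    (hre : ∀ γ ∈ Γ, ∀ z : ℍ, (φ (γ • z)).re = (φ z).re)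
    (hper : ∀ (δ : SL(2, ℤ)) (z : ℍ), φ (δ • (ModularGroup.T ^ (N : ℤ) • z)) = φ (δ • z))
    (hlim : ∀ δ : SL(2, ℤ), ∃ L : ℂ, Tendsto (fun w : ℍ => φ (δ • w)) atImInfty (𝓝 L)) :
    ∀ τ : ℍ, d τ = 0 := by
  classical
  have : Fintype (SL(2, ℤ) ⧸ Γ) := Fintype.ofFinite _
  have hA : ∀ (g₁ g₂ : SL(2, ℤ)), (g₁ : SL(2, ℤ) ⧸ Γ) = g₂ → ∀ z : ℍ,
      (φ (g₁⁻¹ • z)).re = (φ (g₂⁻¹ • z)).re := by
    intro g₁ g₂ h12 z
    have hmem : g₁⁻¹ * g₂ ∈ Γ := QuotientGroup.eq.mp h12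
    have := hre _ hmem (g₂⁻¹ • z)
    rw [← mul_smul, mul_assoc, mul_inv_cancel, mul_one] at this
    exact this
  have hφmd : MDifferentiable 𝓘(ℂ) 𝓘(ℂ) φ := fun τ =>
    mdifferentiableAt_iff.mpr (hd τ).differentiableAt
  let E : (SL(2, ℤ) ⧸ Γ) → ℂ → ℂ := fun c z =>
    Complex.exp (φ ((Quotient.out c)⁻¹ • ofComplex z))
  have hEnorm : ∀ c z, ‖E c z‖ = Real.exp ((φ ((Quotient.out c)⁻¹ • ofComplex z)).re) :=
    fun c z => Complex.norm_exp _
  -- invariance of the square sum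
  have hinv : ∀ (σ : SL(2, ℤ)) (z : ℍ),
      ∑ c, ‖E c ↑(σ • z)‖ ^ 2 = ∑ c, ‖E c ↑z‖ ^ 2 := by
    intro σ z
    have h1 : ∀ c, ‖E c ↑(σ • z)‖ ^ 2 = ‖E (σ⁻¹ • c) ↑z‖ ^ 2 := by
      intro c
      rw [hEnorm, hEnorm, ofComplex_apply, ofComplex_apply]
      have e : (Quotient.out c)⁻¹ • σ • z = (σ⁻¹ * Quotient.out c)⁻¹ • z := by
        rw [mul_inv_rev, inv_inv, mul_smul]
      rw [e]
      have hc : ((σ⁻¹ * Quotient.out c : SL(2, ℤ)) : SL(2, ℤ) ⧸ Γ)
          = ((Quotient.out (σ⁻¹ • c) : SL(2, ℤ)) : SL(2, ℤ) ⧸ Γ) := by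
        rw [QuotientGroup.out_eq']
        have := MulAction.Quotient.smul_coe (Γ) σ⁻¹ (Quotient.out c)
        rw [QuotientGroup.out_eq', smul_eq_mul] at this
        exact this.symm
      rw [hA _ _ hc z]
    rw [Finset.sum_congr rfl (fun c _ => h1 c)]
    exact Equiv.sum_comp (MulAction.toPerm (σ⁻¹ : SL(2, ℤ)))
      (fun c : SL(2, ℤ) ⧸ Γ => ‖E c ↑z‖ ^ 2)
  have hNpos : (0 : ℝ) < (N : ℝ) := Nat.cast_pos.mpr (Nat.pos_of_ne_zero (NeZero.ne N))
  have hEper : ∀ c, Function.Periodic (E c) ((N : ℝ) : ℂ) := by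
    intro c z
    show Complex.exp _ = Complex.exp _
    rcases lt_or_ge 0 z.im with hz | hz
    · have hz' : 0 < (z + ((N : ℝ) : ℂ)).im := by simpa using hz
      have e : ofComplex (z + ((N : ℝ) : ℂ)) = ModularGroup.T ^ (N : ℤ) • ofComplex z := by
        apply UpperHalfPlane.ext
        rw [ModularGroup.coe_T_zpow_smul_eq, ofComplex_apply_of_im_pos hz',
          ofComplex_apply_of_im_pos hz]
        simp
      rw [e, hper]
    · have hz' : (z + ((N : ℝ) : ℂ)).im ≤ 0 := by simpa using hz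
      rw [ofComplex_apply_of_im_nonpos hz', ofComplex_apply_of_im_nonpos hz]
  have hEdiff : ∀ c (z : ℂ), 0 < z.im → DifferentiableAt ℂ (E c) z := by
    intro c z hz
    have hdet : 0 < ((((Quotient.out c)⁻¹ : SL(2, ℤ)) : GL (Fin 2) ℝ)).det.val := by simp
    have h1 : MDifferentiable 𝓘(ℂ) 𝓘(ℂ) (fun τ : ℍ => φ ((Quotient.out c)⁻¹ • τ)) :=
      hφmd.comp (mdifferentiable_smul hdet)
    have h2 := mdifferentiableAt_iff.mp (h1 ⟨z, hz⟩)
    exact h2.cexp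
  have hEbdd : ∀ c, BoundedAtFilter (comap Complex.im atTop) (E c) := by
    intro c
    obtain ⟨L, hL⟩ := hlim (Quotient.out c)⁻¹
    have h1 : Tendsto (fun z : ℂ => φ ((Quotient.out c)⁻¹ • ofComplex z))
        (comap Complex.im atTop) (𝓝 L) := hL.comp tendsto_comap_im_ofComplex
    have h2 : Tendsto (E c) (comap Complex.im atTop) (𝓝 (Complex.exp L)) :=
      (Complex.continuous_exp.tendsto L).comp h1
    exact h2.isBigO_one ℝ
  have hEdom : ∀ z : ℂ, 0 < z.im → ∃ z' : ℂ, 1 / 2 ≤ z'.im ∧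
      ∑ c, ‖E c z‖ ^ 2 ≤ ∑ c, ‖E c z'‖ ^ 2 := by
    intro z hz
    obtain ⟨γ, hγ, -⟩ := ModularGroup.exists_one_half_le_im_smul_and_norm_denom_le ⟨z, hz⟩
    refine ⟨↑(γ • (⟨z, hz⟩ : ℍ)), hγ, ?_⟩
    rw [hinv γ ⟨z, hz⟩]
  have hconst := inj_const_of_family hNpos E hEper hEdiff hEbdd hEdom
  -- now `exp ∘ φ` is constant
  set c0 : SL(2, ℤ) ⧸ Γ := ((1 : SL(2, ℤ)) : SL(2, ℤ) ⧸ Γ) with hc0
  set C : ℂ := Function.Periodic.cuspFunction (N : ℝ) (E c0) 0 with hC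
  have hexp : ∀ w : ℍ, Complex.exp (φ w) = C := by
    intro w
    have := hconst c0 ↑((Quotient.out c0) • w) ((Quotient.out c0) • w).im_pos
    refine Eq.trans ?_ this
    show Complex.exp (φ w) = Complex.exp (φ ((Quotient.out c0)⁻¹ • ofComplex ↑((Quotient.out c0) • w)))
    rw [ofComplex_apply, inv_smul_smul]
  intro τ
  have h1 : HasDerivAt (fun z => Complex.exp ((φ ∘ ofComplex) z))
      (Complex.exp ((φ ∘ ofComplex) ↑τ) * d τ) ↑τ := (hd τ).cexp
  have h2 : (fun z => Complex.exp ((φ ∘ ofComplex) z)) =ᶠ[𝓝 (τ : ℂ)] fun _ => C := by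
    filter_upwards [isOpen_upperHalfPlaneSet.mem_nhds τ.im_pos] with z hz
    exact hexp (ofComplex z)
  have h3 : HasDerivAt (fun z => Complex.exp ((φ ∘ ofComplex) z)) 0 ↑τ :=
    (hasDerivAt_const (τ : ℂ) C).congr_of_eventuallyEq h2
  have h4 := h1.unique h3
  exact (mul_eq_zero.mp h4).resolve_left (Complex.exp_ne_zero _)

end Fermat.Agent.DS
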