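import Fermat.Agent.DS.C.Per.Prim
import Fermat.Agent.DS.C.Per.MaxPr

/-!
# Program DS, package (C), row C7 (PER): a nonzero cusp form has a nonzero period character
-/

set_option autoImplicit false

noncomputable section

namespace Fermat.Agent.DS

open UpperHalfPlane CongruenceSubgroup ModularCurve ModularCurve.Period Filter Topology
open Fermat.Agent.S21
open scoped MatrixGroups ComplexConjugate Manifold

/-- Conjugates of `T ^ M` lie in `Γ(M) ⊆ Γ₁(M)`. -/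
theorem dscper_conj_T_mem (M : ℕ) (δ : SL(2, ℤ)) :
    δ * ModularGroup.T ^ (M : ℤ) * δ⁻¹ ∈ Gamma1 M := by
  have hdet : (δ : Matrix (Fin 2) (Fin 2) ℤ) 0 0 * (δ : Matrix (Fin 2) (Fin 2) ℤ) 1 1
      - (δ : Matrix (Fin 2) (Fin 2) ℤ) 0 1 * (δ : Matrix (Fin 2) (Fin 2) ℤ) 1 0 = 1 := by
    have := δ.det_coe
    rwa [Matrix.det_fin_two] at this
  have hmat : ((δ * ModularGroup.T ^ (M : ℤ) * δ⁻¹ : SL(2, ℤ)) : Matrix (Fin 2) (Fin 2) ℤ)
      = (δ : Matrix (Fin 2) (Fin 2) ℤ) * !![1, (M : ℤ); 0, 1]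
        * Matrix.adjugate (δ : Matrix (Fin 2) (Fin 2) ℤ) := by
    rw [Matrix.SpecialLinearGroup.coe_mul, Matrix.SpecialLinearGroup.coe_mul,
      Matrix.SpecialLinearGroup.coe_inv, ModularGroup.coe_T_zpow]
  have e00 : ((δ * ModularGroup.T ^ (M : ℤ) * δ⁻¹ : SL(2, ℤ)) : Matrix (Fin 2) (Fin 2) ℤ) 0 0
      = 1 - (M : ℤ) * ((δ : Matrix (Fin 2) (Fin 2) ℤ) 0 0 * (δ : Matrix (Fin 2) (Fin 2) ℤ) 1 0) := by
    rw [hmat, Matrix.adjugate_fin_two]
    simp [Matrix.mul_apply, Fin.sum_univ_two]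
    linear_combination hdet
  have e11 : ((δ * ModularGroup.T ^ (M : ℤ) * δ⁻¹ : SL(2, ℤ)) : Matrix (Fin 2) (Fin 2) ℤ) 1 1
      = 1 + (M : ℤ) * ((δ : Matrix (Fin 2) (Fin 2) ℤ) 0 0 * (δ : Matrix (Fin 2) (Fin 2) ℤ) 1 0) := by
    rw [hmat, Matrix.adjugate_fin_two]
    simp [Matrix.mul_apply, Fin.sum_univ_two]
    linear_combination hdet
  have e10 : ((δ * ModularGroup.T ^ (M : ℤ) * δ⁻¹ : SL(2, ℤ)) : Matrix (Fin 2) (Fin 2) ℤ) 1 0
      = - (M : ℤ) * ((δ : Matrix (Fin 2) (Fin 2) ℤ) 1 0) ^ 2 := by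
    rw [hmat, Matrix.adjugate_fin_two]
    simp [Matrix.mul_apply, Fin.sum_univ_two]
    ring
  rw [Gamma1_mem]
  refine ⟨?_, ?_, ?_⟩
  · rw [e00]; push_cast; simp
  · rw [e11]; push_cast; simp
  · rw [e10]; push_cast; simp

/-- **nonvanishing**: a cusp form on `Γ₁(M)` all of whose periods vanish is zero. -/
theorem dscPeriod_eq_zero_imp (M : ℕ) [NeZero M] (g : CuspForm (Gamma1 M) 2)
    (h : dscPeriod M g = 0) : g = 0 := by
  have hinv : ∀ (γ : SL(2, ℤ)), γ ∈ Gamma1 M → ∀ z : ℍ, dscPrim M g (γ • z) = dscPrim M g z := by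
    intro γ hγ z
    have h1 := dscPeriod_apply' M g ⟨γ, hγ⟩ z
    rw [h, AddMonoidHom.zero_apply] at h1
    exact sub_eq_zero.mp h1.symm
  have key : ∀ τ : ℍ, g τ = 0 := by
    refine dscper_deriv_eq_zero (Gamma1 M) M (dscPrim M g) (fun τ => g τ)
      (dscPrim_hasDerivAt M g) ?_ ?_ (dscPrim_lim M g)
    · intro γ hγ z
      rw [hinv γ hγ z]
    · intro δ z
      have e : (δ * ModularGroup.T ^ (M : ℤ) * δ⁻¹) • δ • z
          = δ • (ModularGroup.T ^ (M : ℤ) • z) := by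
        rw [← mul_smul, ← mul_smul, inv_mul_cancel_right]
      rw [← e]
      exact hinv _ (dscper_conj_T_mem M δ) (δ • z)
  exact DFunLike.ext _ _ key

theorem dscPsi_ne_zero (M : ℕ) [NeZero M] (g : CuspForm (Gamma1 M) 2) (hg : g ≠ 0) :
    dscPsi M g ≠ 0 := by
  intro h
  apply hg
  apply dscPeriod_eq_zero_imp
  refine AddMonoidHom.ext fun γ => ?_
  rw [← dscPsi_cls, h]
  rfl

end Fermat.Agent.DS
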