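import Fermat.Agent.DS.C.Per.Par
import Fermat.Agent.DS.C.Per.HeckePer
import Fermat.Agent.DS.C.Per.HeckeFun
import Fermat.Agent.DS.C.Per.Dia
import Fermat.Agent.DS.C.Per.Inj
import Fermat.Agent.DS.C.Per.Fg
import Fermat.Agent.DS.C.Per.DiaMul

/-!
# Program DS, package (C), row C7 (PER): the period black box (PER1)

For `M ≥ 5`, a nonzero `g ∈ S₂(Γ₁(M))` with nebentypus `ψ` and `T_p g = b_p g` (`q`-coefficient
form, `p ∤ M`) has a period character `Ψ_g : Γ₁(M)^ab → ℂ` which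

* is nonzero (`dscPsi_ne_zero`, maximum principle),
* kills every class with `trace² ≤ 4` (`dscPsi_par`),
* is an eigenvector of the transfer Hecke operators `dscTr M p` with eigenvalue `b_p`,
* is an eigenvector of the diamond operators `dscDia M d` with eigenvalue `ψ(d)`;

and `Γ₁(M)^ab` is finitely generated (`dscper_fg`, `Per/Fg.lean`, helper1).  Also: the total operators `dscTA M p`, the dual operators
`dscTAtw M p = T_p ∘ ⟨p⟩⁻¹` (eigenvalue `b_p ψ(p)⁻¹`) and the set `dscPE M` of parabolic/elliptic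
classes, in the shape of the abstract assembly `DS/C/Asm/Top.lean`.
-/

set_option autoImplicit false

noncomputable section

namespace Fermat.Agent.DS

open UpperHalfPlane CongruenceSubgroup ModularFormClass
open scoped MatrixGroups ModularForm

/-! ### linearity of the period character -/

theorem dscPsi_smul (M : ℕ) [NeZero M] (c : ℂ) (g : CuspForm (Gamma1 M) 2) :
    dscPsi M (c • g) = c • dscPsi M g := by
  refine dscAb_ext fun γ => ?_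
  rw [dscPsi_cls, AddMonoidHom.smul_apply, dscPsi_cls, dscPeriod_smul]
  rfl

/-! ### (PER1) -/

/-- **(PER1)**: the period character of an eigenform. -/
theorem dscper_main (M : ℕ) [NeZero M] (hM : 5 ≤ M) (g : CuspForm (Gamma1 M) 2)
    (ψ : DirichletCharacter ℂ M) (b : ℕ → ℂ) (hg : g ≠ 0)
    (hneb : ∀ γ : SL(2, ℤ), γ ∈ Gamma0 M →
      (g : ℍ → ℂ) ∣[(2 : ℤ)] γ = ψ ((γ 1 1 : ℤ) : ZMod M) • (g : ℍ → ℂ))
    (hT : ∀ p : ℕ, p.Prime → ¬ p ∣ M → ∀ n : ℕ,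
      qCoeff g (p * n) + (p : ℂ) * ψ (p : ZMod M) * (if p ∣ n then qCoeff g (n / p) else 0)
        = b p * qCoeff g n) :
    dscPsi M g ≠ 0 ∧ DscPar (dscPsi M g) ∧
      (∀ (p : ℕ) [Fact p.Prime] (hpM : ¬ p ∣ M),
        (dscPsi M g).comp (dscTr M p hpM) = b p • dscPsi M g) ∧
      (∀ d : (ZMod M)ˣ, (dscPsi M g).comp (dscDia M d) = ψ (d : ZMod M) • dscPsi M g) := by
  refine ⟨dscPsi_ne_zero M g hg, dscPsi_par M hM g, ?_, dscPsi_dia M ψ g hneb⟩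
  intro p _ hpM
  have h1 := dscper_hecke_fun M g ψ b hneb p hpM (hT p Fact.out hpM)
  have h2 := dscPsi_hecke M p hpM g (b p • g) (fun τ => by
    have := congrFun h1 τ
    rw [Finset.sum_apply] at this
    exact this.symm)
  rw [← h2, dscPsi_smul]

/-! ### the shape of the abstract assembly -/

/-- the set of classes of elements of `Γ₁(M)` with `trace² ≤ 4`. -/
def dscPE (M : ℕ) : Set (dscAb M) :=
  {s | ∃ γ : Gamma1 M, (((γ : SL(2, ℤ)) : Matrix (Fin 2) (Fin 2) ℤ).trace) ^ 2 ≤ 4 ∧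
    dscCls M (Additive.ofMul γ) = s}

theorem dscPar_iff_PE {M : ℕ} {A : Type*} [AddCommGroup A] (χ : dscAb M →+ A) :
    DscPar χ ↔ ∀ s ∈ dscPE M, χ s = 0 := by
  constructor
  · rintro h s ⟨γ, hγ, rfl⟩
    exact h γ hγ
  · intro h γ hγ
    exact h _ ⟨γ, hγ, rfl⟩

open Classical in
/-- the total Hecke operator on `Γ₁(M)^ab`: `dscTr M p` for `p` prime, `p ∤ M`, and `0`
otherwise. -/
def dscTA (M : ℕ) [NeZero M] (p : ℕ) : dscAb M →+ dscAb M :=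
  if h : p.Prime ∧ ¬ p ∣ M then @dscTr M p _ ⟨h.1⟩ h.2 else 0

theorem dscTA_eq (M : ℕ) [NeZero M] (p : ℕ) [Fact p.Prime] (hpM : ¬ p ∣ M) :
    dscTA M p = dscTr M p hpM := by
  have h : p.Prime ∧ ¬ p ∣ M := ⟨Fact.out, hpM⟩
  rw [dscTA, dif_pos h]

open Classical in
/-- the dual Hecke operator `T_p^* = T_p ∘ ⟨p⟩⁻¹` on `Γ₁(M)^ab` (total in `p`). -/
def dscTAtw (M : ℕ) [NeZero M] (p : ℕ) : dscAb M →+ dscAb M :=
  if h : p.Prime ∧ ¬ p ∣ M then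
    (@dscTr M p _ ⟨h.1⟩ h.2).comp (dscDia M (@dscUnit M p ⟨h.1⟩ h.2)⁻¹) else 0

theorem dscTAtw_eq (M : ℕ) [NeZero M] (p : ℕ) [Fact p.Prime] (hpM : ¬ p ∣ M) :
    dscTAtw M p = (dscTr M p hpM).comp (dscDia M (dscUnit M p hpM)⁻¹) := by
  have h : p.Prime ∧ ¬ p ∣ M := ⟨Fact.out, hpM⟩
  rw [dscTAtw, dif_pos h]

/-- **(PER1)**, total form, both normalisations of the Hecke operators. -/
theorem dscper_main' (M : ℕ) [NeZero M] (hM : 5 ≤ M) (g : CuspForm (Gamma1 M) 2)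
    (ψ : DirichletCharacter ℂ M) (b : ℕ → ℂ) (hg : g ≠ 0)
    (hneb : ∀ γ : SL(2, ℤ), γ ∈ Gamma0 M →
      (g : ℍ → ℂ) ∣[(2 : ℤ)] γ = ψ ((γ 1 1 : ℤ) : ZMod M) • (g : ℍ → ℂ))
    (hT : ∀ p : ℕ, p.Prime → ¬ p ∣ M → ∀ n : ℕ,
      qCoeff g (p * n) + (p : ℂ) * ψ (p : ZMod M) * (if p ∣ n then qCoeff g (n / p) else 0)
        = b p * qCoeff g n) :
    ∃ Ψ : dscAb M →+ ℂ, Ψ ≠ 0 ∧ (∀ s ∈ dscPE M, Ψ s = 0) ∧
      (∀ p : ℕ, p.Prime → ¬ p ∣ M → Ψ.comp (dscTA M p) = b p • Ψ) ∧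
      (∀ p : ℕ, p.Prime → ¬ p ∣ M →
        Ψ.comp (dscTAtw M p) = (b p * (ψ (p : ZMod M))⁻¹) • Ψ) ∧
      (∀ d : (ZMod M)ˣ, Ψ.comp (dscDia M d) = ψ (d : ZMod M) • Ψ) := by
  obtain ⟨h1, h2, h3, h4⟩ := dscper_main M hM g ψ b hg hneb hT
  refine ⟨dscPsi M g, h1, (dscPar_iff_PE _).mp h2, ?_, ?_, h4⟩
  · intro p hp hpM
    have : Fact p.Prime := ⟨hp⟩
    rw [dscTA_eq M p hpM]
    exact h3 p hpM
  · intro p hp hpM
    have : Fact p.Prime := ⟨hp⟩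
    rw [dscTAtw_eq M p hpM, ← AddMonoidHom.comp_assoc, h3 p hpM]
    refine AddMonoidHom.ext fun s => ?_
    have h5 := DFunLike.congr_fun (h4 (dscUnit M p hpM)⁻¹) s
    rw [AddMonoidHom.comp_apply, AddMonoidHom.smul_apply] at h5
    rw [AddMonoidHom.comp_apply, AddMonoidHom.smul_apply, AddMonoidHom.smul_apply, h5,
      smul_smul]
    congr 2
    -- `ψ (p⁻¹) = (ψ p)⁻¹`
    have h6 : ψ (((dscUnit M p hpM)⁻¹ : (ZMod M)ˣ) : ZMod M) * ψ (p : ZMod M) = 1 := by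
      rw [← map_mul, ← dscUnit_coe M p hpM, ← Units.val_mul, inv_mul_cancel, Units.val_one,
        map_one]
    exact eq_inv_of_mul_eq_one_left h6

end Fermat.Agent.DS
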