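import Fermat.Agent.DS.C.Defs
import Fermat.Agent.DS.A.Lift
import Fermat.Agent.S16.LB.HeckeDec

/-!
# Program DS, package (C), rows C7 (PER) / C6 (THETA) / C8 (ASM): the shared vocabulary

The `Γ₁(M)`-analogue of `G/Asm/Defs.lean`:

* `dscAb M`      : `Γ₁(M)^ab`, additively; `dscCls`, `dscDesc` (class map, descent of characters);
* `DscPar χ`     : the character `χ` of `Γ₁(M)^ab` kills every class of an element with
  `trace² ≤ 4` (for `M ≥ 4` these are exactly the parabolic elements); `dscParHoms M A`;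
* `dscSigma M d` : a chosen `σ_d ∈ Γ₀(M)` with lower right entry `≡ d` (mod `M`);
* `dscDia M d`   : the diamond operator on `Γ₁(M)^ab` = conjugation `γ ↦ σ_d γ σ_d⁻¹`
  (independent of the choice of `σ_d`: `dscDia_cls`);
* `dscDataT M p` : the Hecke correspondence `T_p`, `p ∤ M`, on `Γ₁(M)` as an `S16lbHeckeData`
  (helper1's generic transfer): representatives `[[1, j], [0, p]]` (`j` mod `p`) and
  `σ_p · diag(p, 1)`; `dscTr M p` its transfer endomorphism of `Γ₁(M)^ab`;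
* `dscJl M ℓ`    : `J₁(M)(ℚ̄)[ℓ]`.
-/

set_option autoImplicit false

noncomputable section

namespace Fermat.Agent.DS

open P2MW.S_ModularForm_heckeT_slash_eq_self_of_mem_Gamma0.ModularForm.HeckeSlashInvariance
open ModularForm CongruenceSubgroup Matrix.SpecialLinearGroup ModularCurve AlgebraicCurve
open Fermat.Agent.S16LB
open scoped MatrixGroups

/-! ### the abelianisation of `Γ₁(M)` -/

/-- The abelianisation of `Γ₁(M)`, additively. -/
abbrev dscAb (M : ℕ) : Type := Additive (Abelianization (Gamma1 M))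

/-- The class map `Γ₁(M) → Γ₁(M)^ab`. -/
def dscCls (M : ℕ) : Additive (Gamma1 M) →+ dscAb M :=
  MonoidHom.toAdditive Abelianization.of

/-- Descent of an additive character to the abelianisation. -/
def dscDesc {M : ℕ} {A : Type*} [AddCommGroup A] (φ : Additive (Gamma1 M) →+ A) :
    dscAb M →+ A :=
  MonoidHom.toAdditiveLeft (Abelianization.lift (AddMonoidHom.toMultiplicativeRight φ))

@[simp] theorem dscDesc_cls {M : ℕ} {A : Type*} [AddCommGroup A]
    (φ : Additive (Gamma1 M) →+ A) (γ : Additive (Gamma1 M)) :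
    dscDesc φ (dscCls M γ) = φ γ := by
  simp [dscDesc, dscCls]

theorem dscCls_surjective (M : ℕ) : Function.Surjective (dscCls M) := by
  intro x
  obtain ⟨γ, hγ⟩ := QuotientGroup.mk_surjective (s := commutator (Gamma1 M)) (Additive.toMul x)
  exact ⟨Additive.ofMul γ, congrArg Additive.ofMul hγ⟩

theorem dscAb_ext {M : ℕ} {A : Type*} [AddCommGroup A] {f g : dscAb M →+ A}
    (h : ∀ γ : Additive (Gamma1 M), f (dscCls M γ) = g (dscCls M γ)) : f = g := by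
  refine AddMonoidHom.ext fun x => ?_
  obtain ⟨γ, rfl⟩ := dscCls_surjective M x
  exact h γ

/-- `χ` kills the classes of all elements of `Γ₁(M)` with `trace² ≤ 4` (the parabolic elements
when `M ≥ 4`). -/
def DscPar {M : ℕ} {A : Type*} [AddCommGroup A] (χ : dscAb M →+ A) : Prop :=
  ∀ γ : Gamma1 M, (((γ : SL(2, ℤ)) : Matrix (Fin 2) (Fin 2) ℤ).trace) ^ 2 ≤ 4 →
    χ (dscCls M (Additive.ofMul γ)) = 0

/-- the group of characters of `Γ₁(M)^ab` killing the parabolic classes. -/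
def dscParHoms (M : ℕ) (A : Type*) [AddCommGroup A] : AddSubgroup (dscAb M →+ A) where
  carrier := {χ | DscPar χ}
  zero_mem' := fun _ _ => rfl
  add_mem' := by
    intro χ ψ hχ hψ γ hγ
    rw [AddMonoidHom.add_apply, hχ γ hγ, hψ γ hγ, add_zero]
  neg_mem' := by
    intro χ hχ γ hγ
    rw [AddMonoidHom.neg_apply, hχ γ hγ, neg_zero]

theorem mem_dscParHoms {M : ℕ} {A : Type*} [AddCommGroup A] {χ : dscAb M →+ A} :
    χ ∈ dscParHoms M A ↔ DscPar χ := Iff.rfl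

/-! ### diamond operators -/

/-- a chosen element of `Γ₀(M)` with lower right entry `d`. -/
def dscSigma (M : ℕ) [NeZero M] (d : (ZMod M)ˣ) : SL(2, ℤ) := (dsa_lift' M d).choose

theorem dscSigma_mem (M : ℕ) [NeZero M] (d : (ZMod M)ˣ) : dscSigma M d ∈ Gamma0 M :=
  (dsa_lift' M d).choose_spec.1

theorem dscSigma_entry (M : ℕ) [NeZero M] (d : (ZMod M)ˣ) :
    (((dscSigma M d) 1 1 : ℤ) : ZMod M) = d :=
  (dsa_lift' M d).choose_spec.2

/-- conjugation by an element of `Γ₀(M)`, as an endomorphism of `Γ₁(M)`. -/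
def dscConj (M : ℕ) [NeZero M] (γ₀ : SL(2, ℤ)) (h : γ₀ ∈ Gamma0 M) : Gamma1 M →* Gamma1 M where
  toFun γ := ⟨γ₀ * γ * γ₀⁻¹, dsa_conj_mem_Gamma1 M γ₀ γ h γ.2⟩
  map_one' := by
    apply Subtype.ext
    simp
  map_mul' a b := by
    apply Subtype.ext
    simp [mul_assoc]

@[simp] theorem dscConj_coe (M : ℕ) [NeZero M] (γ₀ : SL(2, ℤ)) (h : γ₀ ∈ Gamma0 M)
    (γ : Gamma1 M) : ((dscConj M γ₀ h γ : Gamma1 M) : SL(2, ℤ)) = γ₀ * γ * γ₀⁻¹ := rfl

/-- the diamond operator `⟨d⟩` on `Γ₁(M)^ab`: `[γ] ↦ [σ_d γ σ_d⁻¹]`. -/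
def dscDia (M : ℕ) [NeZero M] (d : (ZMod M)ˣ) : dscAb M →+ dscAb M :=
  MonoidHom.toAdditive (Abelianization.map (dscConj M (dscSigma M d) (dscSigma_mem M d)))

theorem dscDia_cls' (M : ℕ) [NeZero M] (d : (ZMod M)ˣ) (γ : Gamma1 M) :
    dscDia M d (dscCls M (Additive.ofMul γ)) =
      dscCls M (Additive.ofMul (dscConj M (dscSigma M d) (dscSigma_mem M d) γ)) := rfl

/-- the diamond operator does not depend on the choice of `σ_d`. -/
theorem dscDia_cls (M : ℕ) [NeZero M] (d : (ZMod M)ˣ) (γ₀ : SL(2, ℤ)) (h : γ₀ ∈ Gamma0 M)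
    (hd : ((γ₀ 1 1 : ℤ) : ZMod M) = d) (γ : Gamma1 M) :
    dscDia M d (dscCls M (Additive.ofMul γ)) =
      dscCls M (Additive.ofMul (dscConj M γ₀ h γ)) := by
  rw [dscDia_cls']
  -- `σ_d = δ γ₀` with `δ ∈ Γ₁(M)`, and inner automorphisms act trivially on the abelianisation
  set σ := dscSigma M d with hσ
  have hδ : σ * γ₀⁻¹ ∈ Gamma1 M :=
    dsa_mul_inv_mem_Gamma1 M σ γ₀ (dscSigma_mem M d) h (by rw [dscSigma_entry, hd])
  let δ : Gamma1 M := ⟨σ * γ₀⁻¹, hδ⟩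
  have h1 : dscConj M σ (dscSigma_mem M d) γ = δ * dscConj M γ₀ h γ * δ⁻¹ := by
    apply Subtype.ext
    simp only [dscConj_coe, Subgroup.coe_mul, Subgroup.coe_inv, δ, mul_inv_rev, inv_inv]
    group
  rw [h1]
  show Additive.ofMul (Abelianization.of (δ * dscConj M γ₀ h γ * δ⁻¹)) =
    Additive.ofMul (Abelianization.of (dscConj M γ₀ h γ))
  congr 1
  rw [map_mul, map_mul, map_inv, mul_comm, inv_mul_cancel_left]

/-! ### the Hecke correspondence `T_p` on `Γ₁(M)` -/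

/-- The embedding `Γ₁(M) → GL₂(ℝ)`. -/
def dscIota (M : ℕ) : Gamma1 M →* GL (Fin 2) ℝ := (mapGL ℝ).comp (Gamma1 M).subtype

theorem dscIota_apply (M : ℕ) (γ : Gamma1 M) : dscIota M γ = mapGL ℝ (γ : SL(2, ℤ)) := rfl

theorem dscIota_injective (M : ℕ) : Function.Injective (dscIota M) :=
  fun _ _ h => Subtype.ext (mapGL_injective h)

/-- the class of `p` in `(ℤ/M)ˣ`. -/
def dscUnit (M p : ℕ) [Fact p.Prime] (hpM : ¬ p ∣ M) : (ZMod M)ˣ :=
  ZMod.unitOfCoprime p ((Nat.Prime.coprime_iff_not_dvd Fact.out).2 hpM)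

@[simp] theorem dscUnit_coe (M p : ℕ) [Fact p.Prime] (hpM : ¬ p ∣ M) :
    ((dscUnit M p hpM : (ZMod M)ˣ) : ZMod M) = (p : ZMod M) := rfl

/-- the correcting factors: `σ_p` at `∞`, `1` at the finite points. -/
def dscCorr (M p : ℕ) [NeZero M] [Fact p.Prime] (hpM : ¬ p ∣ M) (x : OnePoint (ZMod p)) :
    SL(2, ℤ) :=
  x.elim (dscSigma M (dscUnit M p hpM)) (fun _ => 1)

/-- the representatives of `Γ₁(M) \ Γ₁(M) diag(1,p) Γ₁(M)`. -/
def dscRep (M p : ℕ) [NeZero M] [Fact p.Prime] (hpM : ¬ p ∣ M) (x : OnePoint (ZMod p)) :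
    GL (Fin 2) ℝ :=
  mapGL ℝ (dscCorr M p hpM x) * heckeRep p x

theorem dsc_entry_mul (M : ℕ) (A B : SL(2, ℤ)) (hA : A ∈ Gamma0 M) :
    (((A * B) 1 1 : ℤ) : ZMod M) = ((A 1 1 : ℤ) : ZMod M) * ((B 1 1 : ℤ) : ZMod M) := by
  rw [Gamma0_mem] at hA
  simp only [Matrix.SpecialLinearGroup.coe_mul, Matrix.mul_apply, Fin.sum_univ_two]
  push_cast
  rw [hA]
  ring

theorem dscCorr_mem (M p : ℕ) [NeZero M] [Fact p.Prime] (hpM : ¬ p ∣ M)
    (x : OnePoint (ZMod p)) : dscCorr M p hpM x ∈ Gamma0 M := by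
  induction x using OnePoint.rec with
  | infty => exact dscSigma_mem M _
  | coe j => exact (Gamma0 M).one_mem

theorem dscCorr_entry (M p : ℕ) [NeZero M] [Fact p.Prime] (hpM : ¬ p ∣ M)
    (x : OnePoint (ZMod p)) :
    (((dscCorr M p hpM x) 1 1 : ℤ) : ZMod M) * ((s16lbRepD p x : ℕ) : ZMod M) = (p : ZMod M) := by
  induction x using OnePoint.rec with
  | infty =>
    show (((dscSigma M (dscUnit M p hpM)) 1 1 : ℤ) : ZMod M) * ((1 : ℕ) : ZMod M) = _
    rw [dscSigma_entry, dscUnit_coe, Nat.cast_one, mul_one]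
  | coe j =>
    show (((1 : SL(2, ℤ)) 1 1 : ℤ) : ZMod M) * ((p : ℕ) : ZMod M) = _
    simp

theorem dsc_isUnit_p (M p : ℕ) [Fact p.Prime] (hpM : ¬ p ∣ M) : IsUnit (p : ZMod M) :=
  (dscUnit M p hpM).isUnit

theorem dsc_isUnit_repD (M p : ℕ) [Fact p.Prime] (hpM : ¬ p ∣ M) (x : OnePoint (ZMod p)) :
    IsUnit ((s16lbRepD p x : ℕ) : ZMod M) := by
  induction x using OnePoint.rec with
  | infty =>
    show IsUnit (((1 : ℕ) : ZMod M))
    rw [Nat.cast_one]
    exact isUnit_one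
  | coe j => exact dsc_isUnit_p M p hpM

/-- `T_p` on `Γ₁(M)`, `p ∤ M`. -/
def dscDataT (M p : ℕ) [NeZero M] [Fact p.Prime] (hpM : ¬ p ∣ M) :
    S16lbHeckeData (GL (Fin 2) ℝ) (Gamma1 M) (OnePoint (ZMod p)) where
  ι := dscIota M
  hι := dscIota_injective M
  α := dscRep M p hpM
  hex γ x := by
    have hγ0 : (γ : SL(2, ℤ)) ∈ Gamma0 M := Gamma1_in_Gamma0 M γ.2
    obtain ⟨g', hg', h⟩ := heckeRep_mul hpM (γ : SL(2, ℤ)) (s16lb_dvd_of_mem_Gamma0 hγ0) x
    set y : OnePoint (ZMod p) := redMatrix p (γ : SL(2, ℤ)) • x with hy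
    have hg'0 : g' ∈ Gamma0 M := s16lb_mem_Gamma0_of_dvd hg'
    -- the lower right entry of `g'`
    have hent := (s16lb_heckeRep_entries h).1
    have hγ1 := (Gamma1_mem M _).mp γ.2
    have hg'10 : ((g' 1 0 : ℤ) : ZMod M) = 0 := Gamma0_mem.mp hg'0
    have hD : ((s16lbRepD p x : ℕ) : ZMod M) =
        ((g' 1 1 : ℤ) : ZMod M) * ((s16lbRepD p y : ℕ) : ZMod M) := by
      have := congrArg (Int.cast : ℤ → ZMod M) hent
      push_cast at this
      rw [hγ1.2.1, hg'10, mul_one, zero_mul, zero_add] at this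
      exact this
    -- the corrected element lies in `Γ₁(M)`
    have hmem : dscCorr M p hpM x * g' * (dscCorr M p hpM y)⁻¹ ∈ Gamma1 M := by
      refine dsa_mul_inv_mem_Gamma1 M _ _
        ((Gamma0 M).mul_mem (dscCorr_mem M p hpM x) hg'0) (dscCorr_mem M p hpM y) ?_
      rw [dsc_entry_mul M _ _ (dscCorr_mem M p hpM x)]
      apply ((dsc_isUnit_repD M p hpM x).mul (dsc_isUnit_repD M p hpM y)).mul_right_cancel
      have hx := dscCorr_entry M p hpM x
      have hy' := dscCorr_entry M p hpM y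
      calc ((dscCorr M p hpM x 1 1 : ℤ) : ZMod M) * ((g' 1 1 : ℤ) : ZMod M) *
            (((s16lbRepD p x : ℕ) : ZMod M) * ((s16lbRepD p y : ℕ) : ZMod M))
          = (((dscCorr M p hpM x 1 1 : ℤ) : ZMod M) * ((s16lbRepD p x : ℕ) : ZMod M)) *
              (((g' 1 1 : ℤ) : ZMod M) * ((s16lbRepD p y : ℕ) : ZMod M)) := by ring
        _ = (p : ZMod M) * ((s16lbRepD p x : ℕ) : ZMod M) := by rw [hx, ← hD]
        _ = (((dscCorr M p hpM y 1 1 : ℤ) : ZMod M) * ((s16lbRepD p y : ℕ) : ZMod M)) *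
              ((s16lbRepD p x : ℕ) : ZMod M) := by rw [hy']
        _ = ((dscCorr M p hpM y 1 1 : ℤ) : ZMod M) *
            (((s16lbRepD p x : ℕ) : ZMod M) * ((s16lbRepD p y : ℕ) : ZMod M)) := by ring
    refine ⟨y, ⟨_, hmem⟩, ?_⟩
    show mapGL ℝ (dscCorr M p hpM x) * heckeRep p x * mapGL ℝ (γ : SL(2, ℤ)) =
      mapGL ℝ (dscCorr M p hpM x * g' * (dscCorr M p hpM y)⁻¹) *
        (mapGL ℝ (dscCorr M p hpM y) * heckeRep p y)
    rw [mul_assoc, h, map_mul, map_mul, map_inv]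
    group
  hun i j γ' h := by
    refine s16lb_heckeRep_unique i j
      ((dscCorr M p hpM i)⁻¹ * (γ' : SL(2, ℤ)) * dscCorr M p hpM j) ?_
    have h' : mapGL ℝ (dscCorr M p hpM i) * heckeRep p i =
        mapGL ℝ (γ' : SL(2, ℤ)) * (mapGL ℝ (dscCorr M p hpM j) * heckeRep p j) := h
    rw [map_mul, map_mul, map_inv, mul_assoc, mul_assoc, ← h']
    group

/-- the Hecke operator `T_p`, `p ∤ M`, on `Γ₁(M)^ab`. -/
def dscTr (M p : ℕ) [NeZero M] [Fact p.Prime] (hpM : ¬ p ∣ M) : dscAb M →+ dscAb M :=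
  (dscDataT M p hpM).trEnd

/-- `J₁(M)(ℚ̄)[ℓ]`. -/
abbrev dscJl (M ℓ : ℕ) : AddSubgroup (DscJ M) :=
  Pic0.torsion (AlgebraicClosure ℚ) (dscFieldBar M 1) ℓ

end Fermat.Agent.DS
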