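import Fermat.Agent.DS.C.Per.Prim
import Fermat.Agent.S21.Parabolic

/-!
# Program DS, package (C), row C7 (PER): the period character kills the parabolic classes

For `M ≥ 5` an element of `Γ₁(M)` with `trace² ≤ 4` has trace `2` (no elliptic elements, no
irregular cusps), hence is `δ T^m δ⁻¹` up to sign, and the period along it vanishes because the
primitive has a limit at the cusp `δ(i∞)`.
-/

set_option autoImplicit false

noncomputable section

namespace Fermat.Agent.DS

open UpperHalfPlane CongruenceSubgroup ModularCurve ModularCurve.Period Filter Topology Function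
open Fermat.Agent.S21
open scoped MatrixGroups Manifold ModularForm Pointwise

/-- in `Γ₁(M)`, `M ≥ 5`, `trace² ≤ 4` forces `trace = 2`. -/
theorem dscper_trace_eq_two (M : ℕ) (hM : 5 ≤ M) (γ : Gamma1 M)
    (h : (((γ : SL(2, ℤ)) : Matrix (Fin 2) (Fin 2) ℤ).trace) ^ 2 ≤ 4) :
    ((γ : SL(2, ℤ)) : Matrix (Fin 2) (Fin 2) ℤ).trace = 2 := by
  obtain ⟨h00, h11, -⟩ := (Gamma1_mem M _).mp γ.2
  rw [Matrix.trace_fin_two] at h ⊢
  set a : ℤ := ((γ : SL(2, ℤ)) : Matrix (Fin 2) (Fin 2) ℤ) 0 0 with ha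
  set d : ℤ := ((γ : SL(2, ℤ)) : Matrix (Fin 2) (Fin 2) ℤ) 1 1 with hd
  have hdvd : (M : ℤ) ∣ a + d - 2 := by
    rw [← ZMod.intCast_zmod_eq_zero_iff_dvd]
    push_cast
    rw [h00, h11]
    ring
  obtain ⟨k, hk⟩ := hdvd
  have hM' : (5 : ℤ) ≤ M := by exact_mod_cast hM
  have hlo : -2 ≤ a + d := by nlinarith
  have hhi : a + d ≤ 2 := by nlinarith
  have hk0 : k = 0 := by
    by_contra hne
    rcases lt_or_gt_of_ne hne with hneg | hpos
    · have : k ≤ -1 := by omega
      nlinarith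
    · have : 1 ≤ k := by omega
      nlinarith
  rw [hk0, mul_zero] at hk
  linarith

/-- The period of a cusp form along an element of trace `± 2` vanishes. -/
theorem dscPeriod_eq_zero_of_trace_sq (M : ℕ) [NeZero M] (f : CuspForm (Gamma1 M) 2)
    (γ : Gamma1 M) (hγ : (((γ : SL(2, ℤ)) : Matrix (Fin 2) (Fin 2) ℤ).trace) ^ 2 = 4) :
    dscPeriod M f (Additive.ofMul γ) = 0 := by
  obtain ⟨δ, m, hδ⟩ := exists_conj_T_zpow_of_trace_sq_eq_four (γ : SL(2, ℤ)) hγ
  obtain ⟨L, hL⟩ := dscPrim_lim M f δ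
  -- the action of γ on δ • w
  have hact : ∀ w : ℍ, ((γ : SL(2, ℤ)) • (δ • w)) = δ • (ModularGroup.T ^ m • w) := by
    intro w
    rcases hδ with h' | h'
    · rw [h', mul_smul, mul_smul, inv_smul_smul]
    · rw [h', ModularGroup.SL_neg_smul, mul_smul, mul_smul, inv_smul_smul]
  have hconst : ∀ w : ℍ, dscPeriod M f (Additive.ofMul γ) =
      dscPrim M f (δ • (ModularGroup.T ^ m • w)) - dscPrim M f (δ • w) := by
    intro w
    rw [dscPeriod_apply' M f γ (δ • w), hact]
  have h1 : Tendsto (fun w : ℍ => dscPrim M f (δ • (ModularGroup.T ^ m • w))) atImInfty (𝓝 L) :=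
    hL.comp (par_tendsto_T_zpow_smul m)
  have h2 : Tendsto (fun w : ℍ => dscPrim M f (δ • (ModularGroup.T ^ m • w))
      - dscPrim M f (δ • w)) atImInfty (𝓝 (L - L)) := h1.sub hL
  have h3 : Tendsto (fun _ : ℍ => dscPeriod M f (Additive.ofMul γ)) atImInfty (𝓝 (L - L)) := by
    refine h2.congr fun w => (hconst w).symm
  have h4 := tendsto_nhds_unique h3 tendsto_const_nhds
  rw [sub_self] at h4
  exact h4.symm

/-- **parabolic vanishing**: for `M ≥ 5` the period character kills every class with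
`trace² ≤ 4`. -/
theorem dscPsi_par (M : ℕ) [NeZero M] (hM : 5 ≤ M) (f : CuspForm (Gamma1 M) 2) :
    DscPar (dscPsi M f) := by
  intro γ hγ
  rw [dscPsi_cls]
  apply dscPeriod_eq_zero_of_trace_sq
  rw [dscper_trace_eq_two M hM γ hγ]
  norm_num

end Fermat.Agent.DS
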