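import Fermat.Agent.DS.C.Per.Defs
import Fermat.Agent.S21.Primitive

/-!
# Program DS, package (C), row C7 (PER): the primitive of a weight 2 cusp form on `Γ₁(M)` and
its period character

Port of `S21/Primitive.lean` (`Γ₀(N)`) to `Γ₁(M)`; the generic analytic lemmas
(`exists_primitive_of_periodic`, `hasDerivAt_comp_smul`, `eq_of_hasDerivAt_zero`) are imported.

* `DscHasPrim M f F`  : `F` is the primitive of `f` vanishing at `i∞` (+ equivariance, + limits
  at all cusps);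
* `dscPrim M f`       : the canonical primitive;
* `dscPeriod M f`     : the period character `γ ↦ F(γ z) − F(z)` of `Γ₁(M)`;
* `dscPeriod_eq_of_hasDerivAt` : it can be computed with ANY primitive of `f`.
-/

set_option autoImplicit false

noncomputable section

namespace Fermat.Agent.DS

open UpperHalfPlane CongruenceSubgroup ModularCurve ModularCurve.Period Filter Topology Function
open Fermat.Agent.S21
open scoped MatrixGroups Manifold ModularForm Pointwise

/-- The slash of a cusp form on `Γ₁(M)` by an element of `SL(2, ℤ)` is holomorphic, periodic and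
zero at `i∞`. -/
theorem dscper_slash_nice (M : ℕ) [NeZero M] (f : CuspForm (Gamma1 M) 2) (δ : SL(2, ℤ)) :
    MDiff (⇑f ∣[(2 : ℤ)] δ) ∧ IsZeroAtImInfty (⇑f ∣[(2 : ℤ)] δ) ∧
      ∃ h : ℝ, 0 < h ∧ Periodic ((⇑f ∣[(2 : ℤ)] δ) ∘ ofComplex) h := by
  obtain ⟨P, hP, hper⟩ := Subgroup.IsArithmetic.exists_nat_mem_strictPeriods_conj
    ((Gamma1 M : Subgroup SL(2, ℤ)) : Subgroup (GL (Fin 2) ℝ))
  have hP' : (0 : ℝ) < P := by exact_mod_cast hP
  have hΓ := hper δ⁻¹
  rw [map_inv] at hΓ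
  set g := CuspForm.translate f (δ : GL (Fin 2) ℝ) with hg
  have hcoe : (⇑g : ℍ → ℂ) = ⇑f ∣[(2 : ℤ)] δ := CuspForm.coe_translate f δ
  refine ⟨?_, ?_, P, hP', ?_⟩
  · rw [← hcoe]; exact g.holo'
  · rw [← hcoe]
    have hc : IsCusp OnePoint.infty (ConjAct.toConjAct (δ : GL (Fin 2) ℝ)⁻¹ •
        ((Gamma1 M : Subgroup SL(2, ℤ)) : Subgroup (GL (Fin 2) ℝ))) :=
      Subgroup.isCusp_of_mem_strictPeriods hP' hΓ
    have : Fact (IsCusp OnePoint.infty (ConjAct.toConjAct (δ : GL (Fin 2) ℝ)⁻¹ •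
        ((Gamma1 M : Subgroup SL(2, ℤ)) : Subgroup (GL (Fin 2) ℝ)))) := ⟨hc⟩
    exact CuspFormClass.zero_at_infty g
  · rw [← hcoe]
    exact SlashInvariantFormClass.periodic_comp_ofComplex g hΓ

/-- The primitive of the slash of a cusp form, vanishing at `i∞`. -/
theorem dscper_exists_primitive_slash (M : ℕ) [NeZero M] (f : CuspForm (Gamma1 M) 2)
    (δ : SL(2, ℤ)) :
    ∃ G : ℍ → ℂ, (∀ τ : ℍ, HasDerivAt (G ∘ ofComplex) ((⇑f ∣[(2 : ℤ)] δ) τ) ↑τ) ∧
      Tendsto G atImInfty (𝓝 0) := by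
  obtain ⟨h1, h2, h, hh, h3⟩ := dscper_slash_nice M f δ
  exact exists_primitive_of_periodic hh h3 h1 h2

/-- `F` is the primitive of `f` vanishing at `i∞`; it is then equivariant and has a limit at
every cusp. -/
def DscHasPrim (M : ℕ) (f : CuspForm (Gamma1 M) 2) (F : ℍ → ℂ) : Prop :=
  (∀ τ : ℍ, HasDerivAt (F ∘ ofComplex) (f τ) ↑τ) ∧
    Tendsto F atImInfty (𝓝 0) ∧
    IsEquivariantPrimitive (Gamma1 M) F ∧
    ∀ δ : SL(2, ℤ), ∃ L : ℂ, Tendsto (fun w : ℍ => F (δ • w)) atImInfty (𝓝 L)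

theorem dscper_slash_one (f : ℍ → ℂ) : f ∣[(2 : ℤ)] (1 : SL(2, ℤ)) = f := by
  rw [ModularForm.SL_slash, map_one]
  exact SlashAction.slash_one (G := GL (Fin 2) ℝ) (2 : ℤ) f

theorem dscper_slash_Gamma1 (M : ℕ) (f : CuspForm (Gamma1 M) 2) (γ : Gamma1 M) :
    ⇑f ∣[(2 : ℤ)] (γ : SL(2, ℤ)) = ⇑f :=
  SlashInvariantForm.slash_action_eqn f _ (Subgroup.mem_map_of_mem _ γ.2)

/-- Existence of the primitive. -/
theorem dscper_exists_hasPrim (M : ℕ) [NeZero M] (f : CuspForm (Gamma1 M) 2) :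
    ∃ F : ℍ → ℂ, DscHasPrim M f F := by
  obtain ⟨F, hF, hF0⟩ := dscper_exists_primitive_slash M f 1
  rw [dscper_slash_one] at hF
  refine ⟨F, hF, hF0, ?_, ?_⟩
  · intro γ
    refine ⟨F ((γ : SL(2, ℤ)) • UpperHalfPlane.I) - F UpperHalfPlane.I, fun z => ?_⟩
    have hinv : ⇑f ∣[(2 : ℤ)] (γ : SL(2, ℤ)) = ⇑f := dscper_slash_Gamma1 M f γ
    have hD : ∀ τ : ℍ, HasDerivAt
        ((fun w : ℍ => F ((γ : SL(2, ℤ)) • w) - F w) ∘ ofComplex) 0 ↑τ := by
      intro τ
      have h2 := (hasDerivAt_comp_smul hF (γ : SL(2, ℤ)) τ).sub (hF τ)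
      rw [hinv, sub_self] at h2
      exact h2
    exact eq_of_hasDerivAt_zero hD z UpperHalfPlane.I
  · intro δ
    obtain ⟨G, hG, hG0⟩ := dscper_exists_primitive_slash M f δ
    have hD : ∀ τ : ℍ, HasDerivAt ((fun w : ℍ => F (δ • w) - G w) ∘ ofComplex) 0 ↑τ := by
      intro τ
      have h2 := (hasDerivAt_comp_smul hF δ τ).sub (hG τ)
      rw [sub_self] at h2
      exact h2
    refine ⟨F (δ • UpperHalfPlane.I) - G UpperHalfPlane.I, ?_⟩
    have hconst : ∀ w : ℍ, F (δ • w) =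
        (F (δ • UpperHalfPlane.I) - G UpperHalfPlane.I) + G w := by
      intro w
      have := eq_of_hasDerivAt_zero hD w UpperHalfPlane.I
      linear_combination this
    have h3 : Tendsto (fun w : ℍ => (F (δ • UpperHalfPlane.I) - G UpperHalfPlane.I) + G w)
        atImInfty (𝓝 ((F (δ • UpperHalfPlane.I) - G UpperHalfPlane.I) + 0)) :=
      tendsto_const_nhds.add hG0
    rw [add_zero] at h3
    exact h3.congr fun w => (hconst w).symm

/-- two primitives of the same function differ by a constant. -/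
theorem dscper_primitive_sub_const {f F G : ℍ → ℂ}
    (hF : ∀ τ : ℍ, HasDerivAt (F ∘ ofComplex) (f τ) ↑τ)
    (hG : ∀ τ : ℍ, HasDerivAt (G ∘ ofComplex) (f τ) ↑τ) (z w : ℍ) :
    F z - G z = F w - G w := by
  have hD : ∀ τ : ℍ, HasDerivAt ((fun w : ℍ => F w - G w) ∘ ofComplex) 0 ↑τ := by
    intro τ
    have h2 := (hF τ).sub (hG τ)
    rw [sub_self] at h2
    exact h2
  exact eq_of_hasDerivAt_zero hD z w

/-- uniqueness of the primitive vanishing at `i∞`. -/
theorem dscper_primitive_unique {f F G : ℍ → ℂ}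
    (hF : ∀ τ : ℍ, HasDerivAt (F ∘ ofComplex) (f τ) ↑τ) (hF0 : Tendsto F atImInfty (𝓝 0))
    (hG : ∀ τ : ℍ, HasDerivAt (G ∘ ofComplex) (f τ) ↑τ) (hG0 : Tendsto G atImInfty (𝓝 0)) :
    F = G := by
  have hlim : Tendsto (fun w : ℍ => F w - G w) atImInfty (𝓝 0) := by
    simpa using hF0.sub hG0
  have hconst : ∀ w : ℍ, F w - G w = F UpperHalfPlane.I - G UpperHalfPlane.I := fun w =>
    dscper_primitive_sub_const hF hG w UpperHalfPlane.I
  have hlim' : Tendsto (fun w : ℍ => F w - G w) atImInfty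
      (𝓝 (F UpperHalfPlane.I - G UpperHalfPlane.I)) :=
    tendsto_const_nhds.congr fun w => (hconst w).symm
  have h0 := tendsto_nhds_unique hlim hlim'
  funext w
  have := hconst w
  rw [← h0] at this
  exact sub_eq_zero.mp this

/-- The canonical primitive. -/
def dscPrim (M : ℕ) [NeZero M] (f : CuspForm (Gamma1 M) 2) : ℍ → ℂ :=
  (dscper_exists_hasPrim M f).choose

theorem dscPrim_spec (M : ℕ) [NeZero M] (f : CuspForm (Gamma1 M) 2) :
    DscHasPrim M f (dscPrim M f) :=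
  (dscper_exists_hasPrim M f).choose_spec

theorem dscPrim_hasDerivAt (M : ℕ) [NeZero M] (f : CuspForm (Gamma1 M) 2) (τ : ℍ) :
    HasDerivAt (dscPrim M f ∘ ofComplex) (f τ) ↑τ := (dscPrim_spec M f).1 τ

theorem dscPrim_tendsto (M : ℕ) [NeZero M] (f : CuspForm (Gamma1 M) 2) :
    Tendsto (dscPrim M f) atImInfty (𝓝 0) := (dscPrim_spec M f).2.1

theorem dscPrim_lim (M : ℕ) [NeZero M] (f : CuspForm (Gamma1 M) 2) (δ : SL(2, ℤ)) :
    ∃ L : ℂ, Tendsto (fun w : ℍ => dscPrim M f (δ • w)) atImInfty (𝓝 L) :=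
  (dscPrim_spec M f).2.2.2 δ

/-- uniqueness: the derivative and the limit at `i∞` determine the primitive. -/
theorem dscPrim_eq (M : ℕ) [NeZero M] {f : CuspForm (Gamma1 M) 2} {F : ℍ → ℂ}
    (hF : ∀ τ : ℍ, HasDerivAt (F ∘ ofComplex) (f τ) ↑τ) (hF0 : Tendsto F atImInfty (𝓝 0)) :
    F = dscPrim M f :=
  dscper_primitive_unique hF hF0 (dscPrim_spec M f).1 (dscPrim_spec M f).2.1

/-- The period character of a weight 2 cusp form on `Γ₁(M)`. -/
def dscPeriod (M : ℕ) [NeZero M] (f : CuspForm (Gamma1 M) 2) : Additive (Gamma1 M) →+ ℂ :=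
  (dscPrim_spec M f).2.2.1.periodHom

theorem dscPeriod_apply (M : ℕ) [NeZero M] (f : CuspForm (Gamma1 M) 2) (γ : Gamma1 M) :
    dscPeriod M f (Additive.ofMul γ) =
      dscPrim M f ((γ : SL(2, ℤ)) • UpperHalfPlane.I) - dscPrim M f UpperHalfPlane.I := rfl

theorem dscPeriod_apply' (M : ℕ) [NeZero M] (f : CuspForm (Gamma1 M) 2) (γ : Gamma1 M) (z : ℍ) :
    dscPeriod M f (Additive.ofMul γ) = dscPrim M f ((γ : SL(2, ℤ)) • z) - dscPrim M f z := by
  rw [dscPeriod_apply]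
  have h := (dscPrim_spec M f).2.2.1
  rw [h.sub_eq_period γ z]
  rfl

/-- the period can be computed with any primitive. -/
theorem dscPeriod_eq_of_hasDerivAt (M : ℕ) [NeZero M] (f : CuspForm (Gamma1 M) 2) {G : ℍ → ℂ}
    (hG : ∀ τ : ℍ, HasDerivAt (G ∘ ofComplex) (f τ) ↑τ) (γ : Gamma1 M) (z : ℍ) :
    dscPeriod M f (Additive.ofMul γ) = G ((γ : SL(2, ℤ)) • z) - G z := by
  rw [dscPeriod_apply' M f γ z]
  have h1 := dscper_primitive_sub_const hG (dscPrim_spec M f).1 ((γ : SL(2, ℤ)) • z) z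
  linear_combination -h1

theorem dscPrim_add (M : ℕ) [NeZero M] (f g : CuspForm (Gamma1 M) 2) :
    dscPrim M (f + g) = dscPrim M f + dscPrim M g := by
  symm
  apply dscPrim_eq
  · intro τ
    exact (dscPrim_hasDerivAt M f τ).add (dscPrim_hasDerivAt M g τ)
  · have := (dscPrim_tendsto M f).add (dscPrim_tendsto M g)
    rw [add_zero] at this
    exact this

theorem dscPrim_smul (M : ℕ) [NeZero M] (c : ℂ) (f : CuspForm (Gamma1 M) 2) :
    dscPrim M (c • f) = c • dscPrim M f := by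
  symm
  apply dscPrim_eq
  · intro τ
    exact (dscPrim_hasDerivAt M f τ).const_mul c
  · have := (dscPrim_tendsto M f).const_mul c
    rw [mul_zero] at this
    exact this

/-- The linear period map. -/
def dscPeriodL (M : ℕ) [NeZero M] :
    CuspForm (Gamma1 M) 2 →ₗ[ℂ] (Additive (Gamma1 M) →+ ℂ) where
  toFun f := dscPeriod M f
  map_add' f g := by
    refine AddMonoidHom.ext fun γ => ?_
    obtain ⟨γ, rfl⟩ := Additive.ofMul.surjective γ
    rw [AddMonoidHom.add_apply, dscPeriod_apply, dscPeriod_apply, dscPeriod_apply, dscPrim_add]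
    simp only [Pi.add_apply]
    ring
  map_smul' c f := by
    refine AddMonoidHom.ext fun γ => ?_
    obtain ⟨γ, rfl⟩ := Additive.ofMul.surjective γ
    rw [RingHom.id_apply, AddMonoidHom.smul_apply, dscPeriod_apply, dscPeriod_apply,
      dscPrim_smul]
    simp only [Pi.smul_apply, smul_eq_mul]
    ring

theorem dscPeriodL_apply (M : ℕ) [NeZero M] (f : CuspForm (Gamma1 M) 2) :
    dscPeriodL M f = dscPeriod M f := rfl

/-- The period character on the abelianisation. -/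
def dscPsi (M : ℕ) [NeZero M] (f : CuspForm (Gamma1 M) 2) : dscAb M →+ ℂ :=
  dscDesc (dscPeriod M f)

@[simp] theorem dscPsi_cls (M : ℕ) [NeZero M] (f : CuspForm (Gamma1 M) 2)
    (γ : Additive (Gamma1 M)) : dscPsi M f (dscCls M γ) = dscPeriod M f γ :=
  dscDesc_cls _ _

end Fermat.Agent.DS
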